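import Fermat.Agent.LT.A2.H798.CpxSpec

/-!
# Row LT, tower A2, leaf A2.03.1.1.10.06 `CX798.DecayC` (helper724, registry row 1487)

OFF-MAIN.  Uniform Gaussian decay of the closed form `FC` of the local Weil family at a complex
place on the bounded sets of admissible pairs.  Imports the cut `LT/A2/H798/CpxSpec.lean`
(helper798@5f07fac26, sha256 8ca2dc50) byte-identically; nothing is assumed.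

`‖FC g m ξ‖ = (‖λ₁ λ₂‖ / N) exp(-2π‖c‖ (‖λ₂ z₁‖² + ‖λ₁ z₂‖²) / N)`, and for entries of
`g, m, g⁻¹, m⁻¹` bounded by `R`: `1 / (2R²) ≤ N ≤ 2R²` (`(g g⁻¹)₁₁ = 1`), `‖λ₁ λ₂‖ = ‖det m‖ ≤ 2R²`,
`λ_i(m) λ_i(m⁻¹) = 1` so `‖λ_i‖ ≥ 1 / (R (1 + ‖ω_i‖))`, and
`‖ξ₁‖² + ‖ξ₂‖² ≤ C (‖z₁‖² + ‖z₂‖²)` because `ω₁ ≠ ω₂`.
-/

set_option autoImplicit false

open scoped ComplexConjugate

noncomputable section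

namespace Fermat.Agent.LT.A2.H724

open Fermat.Agent.LT.A2 Fermat.Agent.LT.A2.WX467 Fermat.Agent.LT.A2.CX798

/-- The norm of the closed form. -/
theorem norm_FC724 (c ω₁ ω₂ : ℂ) (g m : Matrix (Fin 2) (Fin 2) ℂ) (ξ : ℂ × ℂ) :
    ‖FC c ω₁ ω₂ g m ξ‖ = |‖lam ω₁ m * lam ω₂ m‖ / rowN g| *
      Real.exp (-(2 * Real.pi * ‖c‖ *
        (‖lam ω₂ m * (ξ.1 + ω₁ * ξ.2)‖ ^ 2 + ‖lam ω₁ m * (ξ.1 + ω₂ * ξ.2)‖ ^ 2) / rowN g)) := by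
  unfold FC
  rw [norm_mul, Complex.norm_exp, Complex.norm_real, Real.norm_eq_abs]
  congr 2
  rw [Complex.add_re, Complex.ofReal_re]
  have : (4 * (Real.pi : ℂ) * Complex.I *
      (((c * rowB g * ((ξ.1 + ω₁ * ξ.2) * (ξ.1 + ω₂ * ξ.2))).re / rowN g : ℝ) : ℂ)).re = 0 := by
    have e : (4 * (Real.pi : ℂ) * Complex.I *
      (((c * rowB g * ((ξ.1 + ω₁ * ξ.2) * (ξ.1 + ω₂ * ξ.2))).re / rowN g : ℝ) : ℂ))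
        = ((4 * Real.pi *
          ((c * rowB g * ((ξ.1 + ω₁ * ξ.2) * (ξ.1 + ω₂ * ξ.2))).re / rowN g) : ℝ) : ℂ)
            * Complex.I := by
      push_cast
      ring
    rw [e, Complex.re_ofReal_mul, Complex.I_re, mul_zero]
  rw [this, add_zero]

/-- `λ_ω(m) λ_ω(m⁻¹) = 1` on the torus, `ω` a root of `X² - tX + n`. -/
theorem lam_mul_lam_inv724 (ω₁ ω₂ a b : ℂ)
    (hdet : (torMat (ω₁ + ω₂) (ω₁ * ω₂) a b).det ≠ 0) :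
    lam ω₁ (torMat (ω₁ + ω₂) (ω₁ * ω₂) a b) * lam ω₁ (torMat (ω₁ + ω₂) (ω₁ * ω₂) a b)⁻¹ = 1 ∧
    lam ω₂ (torMat (ω₁ + ω₂) (ω₁ * ω₂) a b) * lam ω₂ (torMat (ω₁ + ω₂) (ω₁ * ω₂) a b)⁻¹ = 1 := by
  have hd : (torMat (ω₁ + ω₂) (ω₁ * ω₂) a b).det = (a + b * ω₁) * (a + b * ω₂) := by
    rw [torMat, Matrix.det_fin_two_of]
    ring
  have h1 : a + b * ω₁ ≠ 0 := fun h => hdet (by rw [hd, h, zero_mul])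
  have h2 : a + b * ω₂ ≠ 0 := fun h => hdet (by rw [hd, h, mul_zero])
  have hinv : (torMat (ω₁ + ω₂) (ω₁ * ω₂) a b)⁻¹
      = ((a + b * ω₁) * (a + b * ω₂))⁻¹ • !![a + (ω₁ + ω₂) * b, ω₁ * ω₂ * b; -b, a] := by
    rw [Matrix.inv_def, hd, Ring.inverse_eq_inv', torMat, Matrix.adjugate_fin_two_of]
    simp
  have l0 : ∀ ω : ℂ, lam ω (torMat (ω₁ + ω₂) (ω₁ * ω₂) a b) = a + b * ω := by
    intro ω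
    simp [lam, torMat]
  have l1 : ∀ ω : ℂ, lam ω (torMat (ω₁ + ω₂) (ω₁ * ω₂) a b)⁻¹
      = ((a + b * ω₁) * (a + b * ω₂))⁻¹ * (a + (ω₁ + ω₂) * b - b * ω) := by
    intro ω
    rw [hinv]
    simp [lam]
    ring
  constructor
  · rw [l0, l1]
    field_simp
    ring
  · rw [l0, l1]
    field_simp
    ring

/-- The split coordinates control the coordinates. -/
theorem coord_le724 (ω₁ ω₂ : ℂ) (ξ : ℂ × ℂ) :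
    ‖ω₁ - ω₂‖ ^ 2 * (‖ξ.1‖ ^ 2 + ‖ξ.2‖ ^ 2)
      ≤ 2 * (1 + ‖ω₁‖ ^ 2 + ‖ω₂‖ ^ 2) *
        (‖ξ.1 + ω₁ * ξ.2‖ ^ 2 + ‖ξ.1 + ω₂ * ξ.2‖ ^ 2) := by
  set z₁ := ξ.1 + ω₁ * ξ.2 with hz₁
  set z₂ := ξ.1 + ω₂ * ξ.2 with hz₂
  have e2 : (ω₁ - ω₂) * ξ.2 = z₁ - z₂ := by rw [hz₁, hz₂]; ring
  have e1 : (ω₁ - ω₂) * ξ.1 = ω₁ * z₂ - ω₂ * z₁ := by rw [hz₁, hz₂]; ring
  have n2 : ‖ω₁ - ω₂‖ * ‖ξ.2‖ ≤ ‖z₁‖ + ‖z₂‖ := by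
    rw [← norm_mul, e2]
    exact norm_sub_le _ _
  have n1 : ‖ω₁ - ω₂‖ * ‖ξ.1‖ ≤ ‖ω₁‖ * ‖z₂‖ + ‖ω₂‖ * ‖z₁‖ := by
    rw [← norm_mul, e1]
    calc ‖ω₁ * z₂ - ω₂ * z₁‖ ≤ ‖ω₁ * z₂‖ + ‖ω₂ * z₁‖ := norm_sub_le _ _
      _ = ‖ω₁‖ * ‖z₂‖ + ‖ω₂‖ * ‖z₁‖ := by rw [norm_mul, norm_mul]
  have p0 : 0 ≤ ‖ω₁ - ω₂‖ := norm_nonneg _
  have p1 : 0 ≤ ‖ξ.1‖ := norm_nonneg _
  have p2 : 0 ≤ ‖ξ.2‖ := norm_nonneg _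
  have q1 : 0 ≤ ‖z₁‖ := norm_nonneg _
  have q2 : 0 ≤ ‖z₂‖ := norm_nonneg _
  have w1 : 0 ≤ ‖ω₁‖ := norm_nonneg _
  have w2 : 0 ≤ ‖ω₂‖ := norm_nonneg _
  have s2 : (‖ω₁ - ω₂‖ * ‖ξ.2‖) ^ 2 ≤ (‖z₁‖ + ‖z₂‖) ^ 2 :=
    pow_le_pow_left₀ (mul_nonneg p0 p2) n2 2
  have s1 : (‖ω₁ - ω₂‖ * ‖ξ.1‖) ^ 2 ≤ (‖ω₁‖ * ‖z₂‖ + ‖ω₂‖ * ‖z₁‖) ^ 2 :=
    pow_le_pow_left₀ (mul_nonneg p0 p1) n1 2
  have c2 : (‖z₁‖ + ‖z₂‖) ^ 2 ≤ 2 * (‖z₁‖ ^ 2 + ‖z₂‖ ^ 2) := by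
    nlinarith [sq_nonneg (‖z₁‖ - ‖z₂‖)]
  have c1 : (‖ω₁‖ * ‖z₂‖ + ‖ω₂‖ * ‖z₁‖) ^ 2
      ≤ (‖ω₁‖ ^ 2 + ‖ω₂‖ ^ 2) * (‖z₁‖ ^ 2 + ‖z₂‖ ^ 2) := by
    nlinarith [sq_nonneg (‖ω₁‖ * ‖z₁‖ - ‖ω₂‖ * ‖z₂‖)]
  have hz : 0 ≤ ‖z₁‖ ^ 2 + ‖z₂‖ ^ 2 := by positivity
  have hw : 0 ≤ ‖ω₁‖ ^ 2 + ‖ω₂‖ ^ 2 := by positivity
  nlinarith [mul_nonneg hw hz]

/-- **Leaf A2.03.1.1.10.06 `CX798.DecayC`.** -/
theorem decayC724 : DecayC := by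
  intro c ω₁ ω₂ hc hω R
  by_cases hR : R ≤ 0
  · refine ⟨0, 1, one_pos, ?_⟩
    intro g m hadm hbd ξ
    exfalso
    have hg : ∀ i j, g i j = 0 := by
      intro i j
      have := (hbd i j).1
      exact norm_le_zero_iff.mp (this.trans hR)
    have hdet : g.det = 0 := by
      rw [Matrix.det_fin_two, hg 0 0, hg 0 1]
      ring
    exact hadm.2.2 (hadm.2.1 ▸ hdet)
  rw [not_le] at hR
  have hcpos : 0 < ‖c‖ := norm_pos_iff.mpr hc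
  have hωpos : 0 < ‖ω₁ - ω₂‖ := norm_pos_iff.mpr (sub_ne_zero.mpr hω)
  -- the constants
  set W : ℝ := 1 + ‖ω₁‖ + ‖ω₂‖ with hW
  have hWpos : 0 < W := by positivity
  set C₀ : ℝ := 2 * (1 + ‖ω₁‖ ^ 2 + ‖ω₂‖ ^ 2) with hC₀
  have hC₀pos : 0 < C₀ := by positivity
  set δ : ℝ := 2 * Real.pi * ‖c‖ * (‖ω₁ - ω₂‖ ^ 2 / C₀) / ((R * W) ^ 2 * (2 * R ^ 2)) with hδ
  have hδpos : 0 < δ := by positivity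
  refine ⟨4 * R ^ 4, δ, hδpos, ?_⟩
  intro g m hadm hbd ξ
  obtain ⟨⟨a, b, hm⟩, hdetgm, hdetm⟩ := hadm
  have hdetg : g.det ≠ 0 := hdetgm ▸ hdetm
  -- bounds on `N`
  have hN_le : rowN g ≤ 2 * R ^ 2 := by
    unfold rowN
    have h0 := (hbd 1 0).1
    have h1 := (hbd 1 1).1
    have a0 : ‖g 1 0‖ ^ 2 ≤ R ^ 2 := pow_le_pow_left₀ (norm_nonneg _) h0 2
    have a1 : ‖g 1 1‖ ^ 2 ≤ R ^ 2 := pow_le_pow_left₀ (norm_nonneg _) h1 2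
    linarith
  have hN_ge : 1 / (2 * R ^ 2) ≤ rowN g := by
    have hone : g 1 0 * g⁻¹ 0 1 + g 1 1 * g⁻¹ 1 1 = 1 := by
      have := Matrix.mul_nonsing_inv g (isUnit_iff_ne_zero.mpr hdetg)
      have h11 := congrFun (congrFun this 1) 1
      rw [Matrix.mul_apply, Fin.sum_univ_two] at h11
      simpa using h11
    have hle : (1 : ℝ) ≤ (‖g 1 0‖ + ‖g 1 1‖) * R := by
      calc (1 : ℝ) = ‖g 1 0 * g⁻¹ 0 1 + g 1 1 * g⁻¹ 1 1‖ := by rw [hone, norm_one]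
        _ ≤ ‖g 1 0 * g⁻¹ 0 1‖ + ‖g 1 1 * g⁻¹ 1 1‖ := norm_add_le _ _
        _ = ‖g 1 0‖ * ‖g⁻¹ 0 1‖ + ‖g 1 1‖ * ‖g⁻¹ 1 1‖ := by rw [norm_mul, norm_mul]
        _ ≤ ‖g 1 0‖ * R + ‖g 1 1‖ * R := by
            gcongr
            · exact (hbd 0 1).2.2.1
            · exact (hbd 1 1).2.2.1
        _ = (‖g 1 0‖ + ‖g 1 1‖) * R := by ring
    have hsq : 1 ≤ (‖g 1 0‖ + ‖g 1 1‖) ^ 2 * R ^ 2 := by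
      have := pow_le_pow_left₀ zero_le_one hle 2
      rw [one_pow, mul_pow] at this
      exact this
    have h2 : (‖g 1 0‖ + ‖g 1 1‖) ^ 2 ≤ 2 * rowN g := by
      unfold rowN
      nlinarith [sq_nonneg (‖g 1 0‖ - ‖g 1 1‖)]
    rw [div_le_iff₀ (by positivity)]
    have hR2 : 0 ≤ R ^ 2 := by positivity
    nlinarith [mul_le_mul_of_nonneg_right h2 hR2]
  have hNpos : 0 < rowN g := lt_of_lt_of_le (by positivity) hN_ge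
  -- the prefactor
  have hlam : lam ω₁ m * lam ω₂ m = m.det := by
    rw [hm, torMat, Matrix.det_fin_two_of]
    simp [lam]
    ring
  have hdet_le : ‖m.det‖ ≤ 2 * R ^ 2 := by
    rw [Matrix.det_fin_two]
    calc ‖m 0 0 * m 1 1 - m 0 1 * m 1 0‖ ≤ ‖m 0 0 * m 1 1‖ + ‖m 0 1 * m 1 0‖ := norm_sub_le _ _
      _ = ‖m 0 0‖ * ‖m 1 1‖ + ‖m 0 1‖ * ‖m 1 0‖ := by rw [norm_mul, norm_mul]
      _ ≤ R * R + R * R := by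
          gcongr
          · exact (hbd 0 0).2.1
          · exact (hbd 1 1).2.1
          · exact (hbd 0 1).2.1
          · exact (hbd 1 0).2.1
      _ = 2 * R ^ 2 := by ring
  have hpre : |‖lam ω₁ m * lam ω₂ m‖ / rowN g| ≤ 4 * R ^ 4 := by
    rw [abs_of_nonneg (div_nonneg (norm_nonneg _) hNpos.le), hlam, div_le_iff₀ hNpos]
    calc ‖m.det‖ ≤ 2 * R ^ 2 := hdet_le
      _ = 4 * R ^ 4 * (1 / (2 * R ^ 2)) := by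
          field_simp
          ring
      _ ≤ 4 * R ^ 4 * rowN g := by
          gcongr
  -- lower bounds for `λ_i`
  have hdetm' : (torMat (ω₁ + ω₂) (ω₁ * ω₂) a b).det ≠ 0 := hm ▸ hdetm
  obtain ⟨hl1, hl2⟩ := lam_mul_lam_inv724 ω₁ ω₂ a b hdetm'
  rw [← hm] at hl1 hl2
  have hlinv : ∀ ω : ℂ, ‖lam ω m⁻¹‖ ≤ R * (1 + ‖ω‖) := by
    intro ω
    unfold lam
    calc ‖m⁻¹ 0 0 + m⁻¹ 1 0 * ω‖ ≤ ‖m⁻¹ 0 0‖ + ‖m⁻¹ 1 0 * ω‖ := norm_add_le _ _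
      _ = ‖m⁻¹ 0 0‖ + ‖m⁻¹ 1 0‖ * ‖ω‖ := by rw [norm_mul]
      _ ≤ R + R * ‖ω‖ := by
          gcongr
          · exact (hbd 0 0).2.2.2
          · exact (hbd 1 0).2.2.2
      _ = R * (1 + ‖ω‖) := by ring
  have hlow : ∀ ω : ℂ, 1 + ‖ω‖ ≤ W → lam ω m * lam ω m⁻¹ = 1 → 1 ≤ ‖lam ω m‖ * (R * W) := by
    intro ω hWω h
    have h1 : ‖lam ω m‖ * ‖lam ω m⁻¹‖ = 1 := by rw [← norm_mul, h, norm_one]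
    calc (1 : ℝ) = ‖lam ω m‖ * ‖lam ω m⁻¹‖ := h1.symm
      _ ≤ ‖lam ω m‖ * (R * (1 + ‖ω‖)) := by
          gcongr
          exact hlinv ω
      _ ≤ ‖lam ω m‖ * (R * W) := by
          gcongr
  have hW1 : 1 + ‖ω₁‖ ≤ W := by
    rw [hW]
    linarith [norm_nonneg ω₂]
  have hW2 : 1 + ‖ω₂‖ ≤ W := by
    rw [hW]
    linarith [norm_nonneg ω₁]
  have hRW : 0 < R * W := mul_pos hR hWpos
  have hsq : ∀ ω : ℂ, 1 + ‖ω‖ ≤ W → lam ω m * lam ω m⁻¹ = 1 →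
      ∀ z : ℂ, ‖z‖ ^ 2 ≤ (R * W) ^ 2 * ‖lam ω m * z‖ ^ 2 := by
    intro ω hWω h z
    have h1 := hlow ω hWω h
    have h2 : (1 : ℝ) ≤ (‖lam ω m‖ * (R * W)) ^ 2 := by
      have := pow_le_pow_left₀ zero_le_one h1 2
      rwa [one_pow] at this
    have e : ‖lam ω m * z‖ ^ 2 = ‖lam ω m‖ ^ 2 * ‖z‖ ^ 2 := by rw [norm_mul, mul_pow]
    rw [e]
    have hz : 0 ≤ ‖z‖ ^ 2 := by positivity
    calc ‖z‖ ^ 2 = 1 * ‖z‖ ^ 2 := (one_mul _).symm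
      _ ≤ (‖lam ω m‖ * (R * W)) ^ 2 * ‖z‖ ^ 2 := by gcongr
      _ = (R * W) ^ 2 * (‖lam ω m‖ ^ 2 * ‖z‖ ^ 2) := by ring
  -- the exponent
  set S : ℝ := ‖ξ.1‖ ^ 2 + ‖ξ.2‖ ^ 2 with hS
  set Z : ℝ := ‖ξ.1 + ω₁ * ξ.2‖ ^ 2 + ‖ξ.1 + ω₂ * ξ.2‖ ^ 2 with hZ
  set Q : ℝ := ‖lam ω₂ m * (ξ.1 + ω₁ * ξ.2)‖ ^ 2 + ‖lam ω₁ m * (ξ.1 + ω₂ * ξ.2)‖ ^ 2 with hQ
  have hQ0 : 0 ≤ Q := by positivity
  have hSZ : ‖ω₁ - ω₂‖ ^ 2 / C₀ * S ≤ Z := by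
    rw [div_mul_eq_mul_div, div_le_iff₀ hC₀pos, mul_comm Z C₀]
    exact coord_le724 ω₁ ω₂ ξ
  have hZQ : Z ≤ (R * W) ^ 2 * Q := by
    rw [hZ, hQ, mul_add]
    exact add_le_add (hsq ω₂ hW2 hl2 _) (hsq ω₁ hW1 hl1 _)
  have hexp : δ * S ≤ 2 * Real.pi * ‖c‖ * Q / rowN g := by
    have hpc : 0 ≤ 2 * Real.pi * ‖c‖ := by positivity
    have hden : 0 < (R * W) ^ 2 * (2 * R ^ 2) := by positivity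
    calc δ * S = 2 * Real.pi * ‖c‖ * (‖ω₁ - ω₂‖ ^ 2 / C₀ * S) / ((R * W) ^ 2 * (2 * R ^ 2)) := by
          rw [hδ]
          ring
      _ ≤ 2 * Real.pi * ‖c‖ * ((R * W) ^ 2 * Q) / ((R * W) ^ 2 * (2 * R ^ 2)) :=
          div_le_div_of_nonneg_right (mul_le_mul_of_nonneg_left (hSZ.trans hZQ) hpc) hden.le
      _ = 2 * Real.pi * ‖c‖ * Q / (2 * R ^ 2) := by
          field_simp
      _ ≤ 2 * Real.pi * ‖c‖ * Q / rowN g := by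
          gcongr
  rw [norm_FC724]
  have hE : Real.exp (-(2 * Real.pi * ‖c‖ * Q / rowN g)) ≤ Real.exp (-δ * S) := by
    apply Real.exp_le_exp.mpr
    rw [neg_mul]
    exact neg_le_neg hexp
  calc |‖lam ω₁ m * lam ω₂ m‖ / rowN g| * Real.exp (-(2 * Real.pi * ‖c‖ * Q / rowN g))
      ≤ 4 * R ^ 4 * Real.exp (-δ * S) := by
        gcongr

end Fermat.Agent.LT.A2.H724

end
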