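import Fermat.Agent.LT.A2.H54.LocFinSpec
import Fermat.Agent.LT.H11.LC

/-!
# Row LT, tower A2, leaf A2.03.1.1.06.01 `LF54.LeafHaar` (helper724, registry row 1578)

OFF-MAIN.  A Haar measure on `K_v` for the Borel σ-algebra: `K_v` is locally compact
(`LT/H11/LC.lean` of helper11, Mathlib only, byte-identical), Mathlib `addHaar`.
Imports the cut `LT/A2/H54/LocFinSpec.lean` (helper54@26071c838, sha256 8ccd9c5c) byte-identically.
-/

set_option autoImplicit false

open IsDedekindDomain NumberField MeasureTheory

noncomputable section

namespace Fermat.Agent.LT.A2.H724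

open Fermat.Agent.LT.A2 Fermat.Agent.LT.A2.WX467

/-- The Haar measure of a locally compact topological field, for the Borel σ-algebra, has the
three properties of `WX467.IsHaarL`. -/
theorem isHaarL_addHaar724 (k : Type) [Field k] [TopologicalSpace k] [IsTopologicalRing k]
    [LocallyCompactSpace k] :
    ∃ μ : @Measure k (borel k), IsHaarL μ := by
  let _ : MeasurableSpace k := borel k
  have : BorelSpace k := ⟨rfl⟩
  refine ⟨(Measure.addHaar : Measure k), ?_, ?_, ?_⟩
  · intro x S
    have h : (fun y : k => x + y) '' S = (fun y : k => -x + y) ⁻¹' S := by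
      ext z
      constructor
      · rintro ⟨y, hy, rfl⟩
        show -x + (x + y) ∈ S
        rw [neg_add_cancel_left]
        exact hy
      · intro hz
        exact ⟨-x + z, hz, by simp⟩
    rw [h]
    exact measure_preimage_add (Measure.addHaar : Measure k) (-x) S
  · intro C hC
    exact IsCompact.measure_lt_top (μ := (Measure.addHaar : Measure k)) hC
  · intro U hU hne
    exact IsOpen.measure_pos (Measure.addHaar : Measure k) hU hne

/-- **Leaf A2.03.1.1.06.01 `LF54.LeafHaar`.** -/
theorem leafHaar724 : LF54.LeafHaar := by
  intro K _ _ v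
  have : LocallyCompactSpace (v.adicCompletion K) :=
    Fermat.Agent.LT.H11.LC.locallyCompactSpace_adicCompletion_h11 K v
  exact isHaarL_addHaar724 (v.adicCompletion K)

end Fermat.Agent.LT.A2.H724

end
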